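import Mathlib.AlgebraicGeometry.EllipticCurve.Affine.AddSubMap
import Mathlib.Tactic
import Fermat.Agent.S13.XOnlyGen

/-!
# Correctness of Mathlib's `WeierstrassCurve.addSubMap` at all pairs of points

For an elliptic curve `W` over a field and arbitrary points `P`, `Q` (including `0`, `P = ±Q`,
2-torsion), the triple `addSubMap W` evaluated at `P.sym2x Q` is a nonzero multiple of
`(P + Q).sym2x (P - Q)`.
-/

set_option autoImplicit false

namespace Fermat.Agent.S13.TorsionXOnly.AddSub

open WeierstrassCurve WeierstrassCurve.Affine MvPolynomial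
open Fermat.Agent.S13.XOnlyGen

variable {K : Type*} [Field K] (W : WeierstrassCurve K)

/-- The three values of `addSubMap` at a triple `(s, t, u)`. -/
theorem eval_addSubMap (v : Fin 3 → K) :
    (fun i => (addSubMap W i).eval v) =
      ![v 0 ^ 2 - W.b₄ * v 0 * v 2 - W.b₆ * v 1 * v 2 - W.b₈ * v 2 ^ 2,
        2 * v 1 * v 0 + W.b₂ * v 0 * v 2 + W.b₄ * v 1 * v 2 + W.b₆ * v 2 ^ 2,
        v 1 ^ 2 - 4 * v 0 * v 2] := by
  funext i
  fin_cases i <;> simp [addSubMap]

/-- `addSubMap` is homogeneous of degree two. -/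
theorem eval_addSubMap_smul (c : K) (v : Fin 3 → K) :
    (fun i => (addSubMap W i).eval (c • v)) = c ^ 2 • fun i => (addSubMap W i).eval v := by
  rw [eval_addSubMap, eval_addSubMap]
  funext i
  fin_cases i <;> simp <;> ring

variable [DecidableEq K] [W.IsElliptic]

/-- the duplication case: `P = some x y`. -/
theorem addSubMap_sym2x_self {x y : K} (h : W.toAffine.Nonsingular x y) :
    ∃ c : K, c ≠ 0 ∧ (fun i => (addSubMap W i).eval ![x * x, x + x, 1]) =
      c • (Point.some x y h + Point.some x y h).sym2x (0 : W.toAffine.Point) := by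
  have hne : (fun i => (addSubMap W i).eval ![x * x, x + x, 1]) ≠ 0 :=
    addSubMap_ne_zero W (x := ![x * x, x + x, 1]) (by
      intro h0
      have := congrFun h0 2
      simp at this)
  rw [eval_addSubMap] at hne ⊢
  by_cases hy : 2 * y + W.a₁ * x + W.a₃ = 0
  · -- 2-torsion
    have h2 : Point.some x y h + Point.some x y h = 0 := add_self_eq_zero h hy
    have hpoly := two_torsion_poly (W := W) h.1
    rw [hy] at hpoly
    rw [h2]
    refine ⟨x ^ 4 - W.b₄ * x ^ 2 - 2 * W.b₆ * x - W.b₈, ?_, ?_⟩
    · intro h0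
      apply hne
      funext i
      fin_cases i
      · simp; linear_combination h0
      · simp; linear_combination -hpoly
      · simp; ring
    · funext i
      fin_cases i
      · simp; ring
      · simp; linear_combination -hpoly
      · simp; ring
  · obtain ⟨x', y', h', hadd, hx'⟩ := exists_dbl h hy
    have hpoly := two_torsion_poly (W := W) h.1
    rw [hadd]
    refine ⟨4 * x ^ 3 + W.b₂ * x ^ 2 + 2 * W.b₄ * x + W.b₆, ?_, ?_⟩
    · rw [← hpoly]; exact pow_ne_zero 2 hy
    · funext i
      fin_cases i
      · simp; linear_combination -hx'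
      · simp; ring
      · simp; ring

/-- **Correctness of `addSubMap`** at every pair of points. -/
theorem addSubMap_sym2x (P Q : W.toAffine.Point) :
    ∃ c : K, c ≠ 0 ∧ (fun i => (addSubMap W i).eval (P.sym2x Q)) =
      c • (P + Q).sym2x (P - Q) := by
  rcases P with _ | ⟨x₁, y₁, h₁⟩
  · rcases Q with _ | ⟨x₂, y₂, h₂⟩
    · refine ⟨1, one_ne_zero, ?_⟩
      rw [eval_addSubMap]
      funext i
      fin_cases i <;> simp [← Point.zero_def]
    · refine ⟨1, one_ne_zero, ?_⟩
      rw [eval_addSubMap]
      have e1 : (Point.zero : W.toAffine.Point) + Point.some x₂ y₂ h₂ = Point.some x₂ y₂ h₂ :=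
        zero_add _
      have e2 : (Point.zero : W.toAffine.Point) - Point.some x₂ y₂ h₂ = -Point.some x₂ y₂ h₂ :=
        zero_sub _
      rw [e1, e2, Point.sym2x_neg_right]
      funext i
      fin_cases i <;> simp [← Point.zero_def] <;> ring
  · rcases Q with _ | ⟨x₂, y₂, h₂⟩
    · refine ⟨1, one_ne_zero, ?_⟩
      rw [eval_addSubMap]
      have e1 : Point.some x₁ y₁ h₁ + (Point.zero : W.toAffine.Point) = Point.some x₁ y₁ h₁ :=
        add_zero _
      have e2 : Point.some x₁ y₁ h₁ - (Point.zero : W.toAffine.Point) = Point.some x₁ y₁ h₁ :=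
        sub_zero _
      rw [e1, e2]
      funext i
      fin_cases i <;> simp [← Point.zero_def] <;> ring
    · by_cases hx : x₁ = x₂
      · -- `P = ± Q`
        subst hx
        have hPQ := eq_or_eq_neg_of_xc_eq (W := W) (P := Point.some x₁ y₁ h₁)
          (Q := Point.some x₁ y₂ h₂) (by simp) (by simp) rfl
        obtain ⟨c, hc, hcs⟩ := addSubMap_sym2x_self W h₁
        refine ⟨c, hc, ?_⟩
        rw [Point.sym2x_some_some]
        rw [hcs]
        rcases hPQ with hPQ | hPQ
        · rw [← hPQ, sub_self]
        · have e1 : Point.some x₁ y₁ h₁ + Point.some x₁ y₂ h₂ = 0 := by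
            rw [hPQ]; exact neg_add_cancel _
          have e2 : Point.some x₁ y₁ h₁ - Point.some x₁ y₂ h₂ =
              Point.some x₁ y₁ h₁ + Point.some x₁ y₁ h₁ := by
            rw [sub_eq_add_neg]
            congr 1
            exact hPQ.symm
          rw [e1, e2, Point.sym2x_comm]
      · obtain ⟨xp, yp, xm, ym, hp, hm, hadd, hsub, hS, hP⟩ := exists_add_sub h₁ h₂ hx
        refine ⟨(x₁ - x₂) ^ 2, pow_ne_zero 2 (sub_ne_zero.mpr hx), ?_⟩
        rw [hadd, hsub, eval_addSubMap]
        funext i
        fin_cases i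
        · simp; linear_combination -hP
        · simp; linear_combination -hS
        · simp; ring

end Fermat.Agent.S13.TorsionXOnly.AddSub
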