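import Mathlib
import Fermat.Agent.S13.TorsionXOnly.AddSub

/-!
# x-only multiplication polynomials from `addSubMap`

For an elliptic curve `W` over an algebraically closed field of characteristic zero we construct,
for every `n ≥ 1`, polynomials `A B : K[X]` with `x(n • P) = A(x(P)) / B(x(P))` for every affine
point `P` (projectively: `(n • P).xRep ∼ (A(x(P)), B(x(P)))`), `A` monic of degree `n²` and `B` of
degree `n² - 1` with leading coefficient `n²`.  The construction is by induction, dividing the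
binary quadratic form given by Mathlib's `addSubMap` by the known linear factor; the group law does
all the work, no identities between division polynomials are used.
-/

set_option autoImplicit false

namespace Fermat.Agent.S13.TorsionXOnly.MulPoly

open WeierstrassCurve WeierstrassCurve.Affine Polynomial
open Fermat.Agent.S13.XOnlyGen Fermat.Agent.S13.TorsionXOnly.AddSub

variable {K : Type*} [Field K] [DecidableEq K] (W : WeierstrassCurve K)

/-- `(A, B)` represents `x ∘ [n]` projectively at every affine point. -/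
def Rep (n : ℕ) (A B : K[X]) : Prop :=
  ∀ (x y : K) (h : W.toAffine.Nonsingular x y),
    ∃ c : K, c ≠ 0 ∧ (n • Point.some x y h).xRep = c • ![A.eval x, B.eval x]

/-- The invariants carried through the induction. -/
structure Good (n : ℕ) (A B : K[X]) : Prop where
  rep : Rep W n A B
  monic : A.Monic
  degA : A.natDegree = n ^ 2
  degB : B.natDegree + 1 = n ^ 2
  lcB : B.leadingCoeff = (n : K) ^ 2

/-- cancellation for the symmetric product of two vectors of length two. -/
theorem sym_cancel {d₀ d₁ w₀ w₁ : K} (hw : w₀ ≠ 0 ∨ w₁ ≠ 0)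
    (h0 : d₀ * w₀ = 0) (h1 : d₀ * w₁ + d₁ * w₀ = 0) (h2 : d₁ * w₁ = 0) : d₀ = 0 ∧ d₁ = 0 := by
  rcases hw with hw | hw
  · have hd0 : d₀ = 0 := by
      rcases mul_eq_zero.mp h0 with h | h
      · exact h
      · exact absurd h hw
    rw [hd0, zero_mul, zero_add] at h1
    rcases mul_eq_zero.mp h1 with h | h
    · exact ⟨hd0, h⟩
    · exact absurd h hw
  · have hd1 : d₁ = 0 := by
      rcases mul_eq_zero.mp h2 with h | h
      · exact h
      · exact absurd h hw
    rw [hd1, zero_mul, add_zero] at h1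
    rcases mul_eq_zero.mp h1 with h | h
    · exact ⟨h, hd1⟩
    · exact absurd h hw

/-- over an algebraically closed field every `x` is the abscissa of a point. -/
theorem exists_point [IsAlgClosed K] [W.IsElliptic] (x : K) :
    ∃ y : K, W.toAffine.Nonsingular x y := by
  let f : K[X] := X ^ 2 + C (W.a₁ * x + W.a₃) * X - C (x ^ 3 + W.a₂ * x ^ 2 + W.a₄ * x + W.a₆)
  have hdeg : f.degree ≠ 0 := by
    have h2 : f.degree = 2 := by
      have : f = X ^ 2 + (C (W.a₁ * x + W.a₃) * X -
          C (x ^ 3 + W.a₂ * x ^ 2 + W.a₄ * x + W.a₆)) := by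
        simp only [f]; ring
      rw [this, degree_add_eq_left_of_degree_lt]
      · simp
      · rw [degree_X_pow]
        refine lt_of_le_of_lt (degree_sub_le _ _) (max_lt ?_ ?_)
        · refine lt_of_le_of_lt (degree_C_mul_X_le _) (by norm_num)
        · refine lt_of_le_of_lt degree_C_le (by norm_num)
    rw [h2]; norm_num
  obtain ⟨y, hy⟩ := IsAlgClosed.exists_root f hdeg
  refine ⟨y, Affine.equation_iff_nonsingular.mp ?_⟩
  rw [Affine.equation_iff]
  have : f.eval y = 0 := hy
  simp only [f, eval_sub, eval_add, eval_pow, eval_X, eval_mul, eval_C] at this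
  linear_combination this

section forms

variable (A B : K[X])

/-- first coordinate of `addSubMap` at `((A : B), (X : 1))`. -/
noncomputable def q0 : K[X] :=
  (A * X) ^ 2 - C W.b₄ * (A * X) * B - C W.b₆ * (A + X * B) * B - C W.b₈ * B ^ 2

/-- second coordinate. -/
noncomputable def q1 : K[X] :=
  2 * (A + X * B) * (A * X) + C W.b₂ * (A * X) * B + C W.b₄ * (A + X * B) * B + C W.b₆ * B ^ 2

/-- third coordinate. -/
noncomputable def q2 : K[X] := (A + X * B) ^ 2 - 4 * (A * X) * B

theorem eval_q (x : K) :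
    ![(q0 W A B).eval x, (q1 W A B).eval x, (q2 A B).eval x] =
      fun i => (addSubMap W i).eval
        ![A.eval x * x, A.eval x * 1 + B.eval x * x, B.eval x * 1] := by
  rw [eval_addSubMap]
  have e0 : (q0 W A B).eval x = (A.eval x * x) ^ 2 - W.b₄ * (A.eval x * x) * (B.eval x * 1)
      - W.b₆ * (A.eval x * 1 + B.eval x * x) * (B.eval x * 1) - W.b₈ * (B.eval x * 1) ^ 2 := by
    simp only [q0, eval_sub, eval_mul, eval_pow, eval_add, eval_C, eval_X]
    ring
  have e1 : (q1 W A B).eval x = 2 * (A.eval x * 1 + B.eval x * x) * (A.eval x * x)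
      + W.b₂ * (A.eval x * x) * (B.eval x * 1)
      + W.b₄ * (A.eval x * 1 + B.eval x * x) * (B.eval x * 1) + W.b₆ * (B.eval x * 1) ^ 2 := by
    simp only [q1, eval_sub, eval_mul, eval_pow, eval_add, eval_C, eval_X, eval_ofNat]
    ring
  have e2 : (q2 A B).eval x = (A.eval x * 1 + B.eval x * x) ^ 2
      - 4 * (A.eval x * x) * (B.eval x * 1) := by
    simp only [q2, eval_sub, eval_mul, eval_pow, eval_add, eval_C, eval_X, eval_ofNat]
    ring
  rw [e0, e1, e2]
  funext i
  fin_cases i <;> rfl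

end forms

theorem sym2x_eq (P Q : W.toAffine.Point) :
    P.sym2x Q = ![P.xRep 0 * Q.xRep 0, P.xRep 0 * Q.xRep 1 + P.xRep 1 * Q.xRep 0,
      P.xRep 1 * Q.xRep 1] := by
  simp only [Point.sym2x]

/-- the values of the three forms at a point, in terms of the true multiples. -/
theorem key_point [W.IsElliptic] {m : ℕ} {Am Bm A B : K[X]} (hm : Rep W m Am Bm)
    (hn : Rep W (m + 1) A B) (x y : K) (h : W.toAffine.Nonsingular x y) :
    ∃ μ : K, μ ≠ 0 ∧
      (q0 W A B).eval x = μ * (((m + 2) • Point.some x y h).xRep 0 * Am.eval x) ∧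
      (q1 W A B).eval x = μ * (((m + 2) • Point.some x y h).xRep 0 * Bm.eval x +
        ((m + 2) • Point.some x y h).xRep 1 * Am.eval x) ∧
      (q2 A B).eval x = μ * (((m + 2) • Point.some x y h).xRep 1 * Bm.eval x) := by
  set P := Point.some x y h with hP
  obtain ⟨c, hc, hcn⟩ := hn x y h
  obtain ⟨cm, hcm, hcmm⟩ := hm x y h
  obtain ⟨c', hc', hadd⟩ := addSubMap_sym2x W ((m + 1) • P) P
  have e1 : (m + 1) • P + P = (m + 2) • P := by
    rw [← succ_nsmul]
  have e2 : (m + 1) • P - P = m • P := by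
    rw [succ_nsmul, add_sub_cancel_right]
  rw [e1, e2] at hadd
  have hsym : ((m + 1) • P).sym2x P =
      c • ![A.eval x * x, A.eval x * 1 + B.eval x * x, B.eval x * 1] := by
    rw [sym2x_eq, hcn, hP, Point.xRep_some]
    funext i
    fin_cases i <;> simp <;> ring
  rw [hsym, eval_addSubMap_smul, ← eval_q, sym2x_eq, hcmm] at hadd
  have h0 := congrFun hadd 0
  have h1 := congrFun hadd 1
  have h2 := congrFun hadd 2
  simp at h0 h1 h2
  refine ⟨c' * cm / c ^ 2, ?_, ?_, ?_, ?_⟩
  · exact div_ne_zero (mul_ne_zero hc' hcm) (pow_ne_zero 2 hc)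
  · field_simp
    linear_combination h0
  · field_simp
    linear_combination h1
  · field_simp
    linear_combination h2

variable [IsAlgClosed K] [W.IsElliptic]

theorem xRep_ne (P : W.toAffine.Point) : P.xRep 0 ≠ 0 ∨ P.xRep 1 ≠ 0 := by
  rcases P with _ | ⟨x, y, h⟩
  · left; simp [← Point.zero_def]
  · right; simp

theorem eval_ne_of_rep {n : ℕ} {A B : K[X]} (h : Rep W n A B) (x : K) :
    A.eval x ≠ 0 ∨ B.eval x ≠ 0 := by
  obtain ⟨y, hy⟩ := exists_point W x
  obtain ⟨c, hc, hcn⟩ := h x y hy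
  by_contra hcon
  rw [not_or, not_not, not_not] at hcon
  have h0 := congrFun hcn 0
  have h1 := congrFun hcn 1
  simp [hcon.1, hcon.2] at h0 h1
  rcases xRep_ne W (n • Point.some x y hy) with h' | h'
  · exact h' h0
  · exact h' h1

theorem isCoprime_of_rep {n : ℕ} {A B : K[X]} (h : Rep W n A B) : IsCoprime A B := by
  rw [Polynomial.isCoprime_iff_aeval_ne_zero_of_isAlgClosed (k := K) K]
  intro a
  simpa [Polynomial.coe_aeval_eq_eval] using eval_ne_of_rep W h a

/-- the binary quadratic form vanishes identically at `(Am : Bm)`. -/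
theorem form_vanish {m : ℕ} {Am Bm A B : K[X]} (hm : Rep W m Am Bm) (hn : Rep W (m + 1) A B) :
    q2 A B * Am ^ 2 - q1 W A B * Am * Bm + q0 W A B * Bm ^ 2 = 0 := by
  have : Infinite K := IsAlgClosed.instInfinite
  apply Polynomial.funext
  intro x
  obtain ⟨y, h⟩ := exists_point W x
  obtain ⟨μ, _, h0, h1, h2⟩ := key_point W hm hn x y h
  simp only [eval_sub, eval_add, eval_mul, eval_pow, eval_zero]
  rw [h0, h1, h2]
  ring

/-- division of the form by its known linear factor. -/
theorem exists_factor {m : ℕ} {Am Bm A B : K[X]} (hm : Rep W m Am Bm) (hn : Rep W (m + 1) A B)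
    (hAm : Am ≠ 0) (hBm : Bm ≠ 0) :
    ∃ Ap Bp : K[X], q0 W A B = Am * Ap ∧ q2 A B = Bm * Bp ∧ q1 W A B = Ap * Bm + Am * Bp := by
  have hcop := isCoprime_of_rep W hm
  have hv := form_vanish W hm hn
  have hB : Bm ∣ q2 A B := by
    have h1 : Bm ∣ q2 A B * Am ^ 2 := by
      refine ⟨q1 W A B * Am - q0 W A B * Bm, ?_⟩
      linear_combination hv
    exact (hcop.symm.pow_right (n := 2)).dvd_of_dvd_mul_right h1
  have hA : Am ∣ q0 W A B := by
    have h1 : Am ∣ q0 W A B * Bm ^ 2 := by
      refine ⟨q1 W A B * Bm - q2 A B * Am, ?_⟩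
      linear_combination hv
    exact (hcop.pow_right (n := 2)).dvd_of_dvd_mul_right h1
  obtain ⟨Bp, hBp⟩ := hB
  obtain ⟨Ap, hAp⟩ := hA
  refine ⟨Ap, Bp, hAp, hBp, ?_⟩
  have hmul : Am * Bm * (q1 W A B - (Ap * Bm + Am * Bp)) = 0 := by
    rw [hAp, hBp] at hv
    linear_combination -hv
  rcases mul_eq_zero.mp hmul with h | h
  · rcases mul_eq_zero.mp h with h | h
    · exact absurd h hAm
    · exact absurd h hBm
  · exact sub_eq_zero.mp h

/-- the quotient represents the next multiple. -/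
theorem rep_succ {m : ℕ} {Am Bm A B Ap Bp : K[X]} (hm : Rep W m Am Bm) (hn : Rep W (m + 1) A B)
    (h0 : q0 W A B = Am * Ap) (h2 : q2 A B = Bm * Bp) (h1 : q1 W A B = Ap * Bm + Am * Bp) :
    Rep W (m + 2) Ap Bp := by
  intro x y h
  obtain ⟨μ, hμ, e0, e1, e2⟩ := key_point W hm hn x y h
  rw [h0, eval_mul] at e0
  rw [h1, eval_add, eval_mul, eval_mul] at e1
  rw [h2, eval_mul] at e2
  set a := ((m + 2) • Point.some x y h).xRep 0 with ha
  set b := ((m + 2) • Point.some x y h).xRep 1 with hb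
  have hw := eval_ne_of_rep W hm x
  obtain ⟨d0, d1⟩ := sym_cancel (d₀ := Ap.eval x - μ * a) (d₁ := Bp.eval x - μ * b) hw
    (by linear_combination e0) (by linear_combination e1) (by linear_combination e2)
  refine ⟨μ⁻¹, inv_ne_zero hμ, ?_⟩
  funext i
  fin_cases i
  · show a = _
    simp
    field_simp
    linear_combination -d0
  · show b = _
    simp
    field_simp
    linear_combination -d1

section degrees

omit [DecidableEq K] [IsAlgClosed K] [W.IsElliptic]

variable {A B : K[X]} {n : ℕ}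

/-- `q0` is monic of degree `2 n² + 2`. -/
theorem q0_monic_natDegree (hA : A.Monic) (hdA : A.natDegree = n ^ 2)
    (hdB : B.natDegree + 1 = n ^ 2) :
    (q0 W A B).Monic ∧ (q0 W A B).natDegree = 2 * n ^ 2 + 2 := by
  have hAX : (A * X).Monic := hA.mul monic_X
  have hdAX : (A * X).natDegree = n ^ 2 + 1 := by
    rw [natDegree_mul_X hA.ne_zero, hdA]
  have hsq : ((A * X) ^ 2).Monic := hAX.pow 2
  have hdsq : ((A * X) ^ 2).natDegree = 2 * n ^ 2 + 2 := by
    rw [hAX.natDegree_pow, hdAX]; ring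
  have hB : B.natDegree ≤ n ^ 2 - 1 := by omega
  have hXB : (X * B).natDegree ≤ n ^ 2 := by
    refine (natDegree_mul_le_of_le natDegree_X_le hB).trans ?_
    omega
  have hAXB : (A + X * B).natDegree ≤ n ^ 2 :=
    natDegree_add_le_of_degree_le hdA.le hXB
  set R : K[X] := C W.b₄ * (A * X) * B + C W.b₆ * (A + X * B) * B + C W.b₈ * B ^ 2 with hR
  have hRdeg : R.natDegree ≤ 2 * n ^ 2 := by
    refine natDegree_add_le_of_degree_le (natDegree_add_le_of_degree_le ?_ ?_) ?_
    · refine (natDegree_mul_le_of_le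
        ((natDegree_C_mul_le _ _).trans hdAX.le) hB).trans ?_
      omega
    · refine (natDegree_mul_le_of_le
        ((natDegree_C_mul_le _ _).trans hAXB) hB).trans ?_
      omega
    · refine (natDegree_C_mul_le _ _).trans ?_
      refine (natDegree_pow_le_of_le 2 hB).trans ?_
      omega
  have hq : q0 W A B = (A * X) ^ 2 - R := by
    simp only [q0, hR]; ring
  have hlt : R.degree < ((A * X) ^ 2).degree := by
    rcases eq_or_ne R 0 with h0 | h0
    · rw [h0, degree_zero]
      exact bot_lt_iff_ne_bot.mpr (by rw [Ne, degree_eq_bot]; exact hsq.ne_zero)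
    · exact degree_lt_degree (by rw [hdsq]; omega)
  refine ⟨hq ▸ hsq.sub_of_left hlt, ?_⟩
  rw [hq, natDegree_sub_eq_left_of_natDegree_lt (by rw [hdsq]; omega), hdsq]

/-- `q2 = (A - X B)²`. -/
theorem q2_eq_sq (A B : K[X]) : q2 A B = (A - X * B) ^ 2 := by
  simp only [q2]; ring

variable [CharZero K]

/-- `q2` has degree `2 n²` and leading coefficient `(1 - n²)²` for `n ≥ 2`. -/
theorem q2_natDegree (hn : 2 ≤ n) (hA : A.Monic) (hdA : A.natDegree = n ^ 2)
    (hdB : B.natDegree + 1 = n ^ 2) (hlB : B.leadingCoeff = (n : K) ^ 2) :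
    (q2 A B).natDegree = 2 * n ^ 2 ∧ (q2 A B).leadingCoeff = (1 - (n : K) ^ 2) ^ 2 := by
  set D : K[X] := A - X * B with hD
  have hB : B.natDegree ≤ n ^ 2 - 1 := by omega
  have hXB : (X * B).natDegree ≤ n ^ 2 := by
    refine (natDegree_mul_le_of_le natDegree_X_le hB).trans ?_
    omega
  have hDle : D.natDegree ≤ n ^ 2 :=
    (natDegree_sub_le _ _).trans (max_le hdA.le hXB)
  have hcoeff : D.coeff (n ^ 2) = 1 - (n : K) ^ 2 := by
    rw [hD, coeff_sub, ← hdB, coeff_X_mul, coeff_natDegree, hlB, hdB, ← hdA, coeff_natDegree,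
      hA.leadingCoeff]
  have hne : (1 : K) - (n : K) ^ 2 ≠ 0 := by
    intro h
    have h1 : ((n ^ 2 : ℕ) : K) = ((1 : ℕ) : K) := by
      push_cast
      linear_combination -h
    have h2 : n ^ 2 = 1 := Nat.cast_injective h1
    nlinarith
  have hDdeg : D.natDegree = n ^ 2 :=
    natDegree_eq_of_le_of_coeff_ne_zero hDle (by rw [hcoeff]; exact hne)
  have hDlc : D.leadingCoeff = 1 - (n : K) ^ 2 := by
    rw [leadingCoeff, hDdeg, hcoeff]
  rw [q2_eq_sq]
  refine ⟨?_, ?_⟩
  · rw [natDegree_pow, hDdeg]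
  · rw [leadingCoeff_pow, hDlc]

end degrees

variable [CharZero K]

theorem rep_zero : Rep W 0 (1 : K[X]) 0 := by
  intro x y h
  refine ⟨1, one_ne_zero, ?_⟩
  rw [zero_nsmul]
  funext i
  fin_cases i <;> simp

theorem good_one : Good W 1 (X : K[X]) 1 where
  rep := by
    intro x y h
    refine ⟨1, one_ne_zero, ?_⟩
    rw [one_nsmul]
    funext i
    fin_cases i <;> simp
  monic := monic_X
  degA := by simp
  degB := by simp
  lcB := by simp

/-- the inductive step. -/
theorem good_succ {m : ℕ} (hm1 : 1 ≤ m) {Am Bm A B : K[X]} (hm : Good W m Am Bm)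
    (hn : Good W (m + 1) A B) : ∃ Ap Bp : K[X], Good W (m + 2) Ap Bp := by
  have hmK : (m : K) ≠ 0 := by
    have : m ≠ 0 := by omega
    exact_mod_cast this
  have hAm : Am ≠ 0 := hm.monic.ne_zero
  have hBm : Bm ≠ 0 := by
    intro h0
    have := hm.lcB
    rw [h0, leadingCoeff_zero] at this
    exact pow_ne_zero 2 hmK this.symm
  obtain ⟨Ap, Bp, h0, h2, h1⟩ := exists_factor W hm.rep hn.rep hAm hBm
  have hrep := rep_succ W hm.rep hn.rep h0 h2 h1
  obtain ⟨hq0m, hq0d⟩ := q0_monic_natDegree W hn.monic hn.degA hn.degB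
  obtain ⟨hq2d, hq2l⟩ := q2_natDegree (n := m + 1) (by omega) hn.monic hn.degA hn.degB hn.lcB
  have hApm : Ap.Monic := hm.monic.of_mul_monic_left (h0 ▸ hq0m)
  have hq2ne : q2 A B ≠ 0 := by
    intro h
    rw [h, leadingCoeff_zero] at hq2l
    have h1' : ((1 : K) - ((m + 1 : ℕ) : K) ^ 2) ^ 2 = 0 := hq2l.symm
    have h2' : (1 : K) - ((m + 1 : ℕ) : K) ^ 2 = 0 := by
      exact pow_eq_zero_iff (n := 2) (by norm_num) |>.mp h1'
    have h3 : (((m + 1) ^ 2 : ℕ) : K) = ((1 : ℕ) : K) := by
      push_cast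
      push_cast at h2'
      linear_combination -h2'
    have h4 : (m + 1) ^ 2 = 1 := Nat.cast_injective h3
    nlinarith
  have hBp : Bp ≠ 0 := by
    intro h
    apply hq2ne
    rw [h2, h, mul_zero]
  refine ⟨Ap, Bp, hrep, hApm, ?_, ?_, ?_⟩
  · have hd : (q0 W A B).natDegree = Am.natDegree + Ap.natDegree := by
      rw [h0, hm.monic.natDegree_mul hApm]
    rw [hq0d, hm.degA] at hd
    have : (m + 2) ^ 2 + m ^ 2 = 2 * (m + 1) ^ 2 + 2 := by ring
    omega
  · have hd : (q2 A B).natDegree = Bm.natDegree + Bp.natDegree := by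
      rw [h2, natDegree_mul hBm hBp]
    rw [hq2d] at hd
    have h3 := hm.degB
    have : (m + 2) ^ 2 + m ^ 2 = 2 * (m + 1) ^ 2 + 2 := by ring
    omega
  · have hl : (q2 A B).leadingCoeff = Bm.leadingCoeff * Bp.leadingCoeff := by
      rw [h2, leadingCoeff_mul]
    rw [hq2l, hm.lcB] at hl
    have hm2 : ((m : K) ^ 2) ≠ 0 := pow_ne_zero 2 hmK
    apply mul_left_cancel₀ hm2
    rw [← hl]
    push_cast
    ring

/-- base case `n = 2`. -/
theorem good_two : Good W 2 (q0 W (X : K[X]) 1) (q1 W (X : K[X]) 1) where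
  rep := by
    intro x y h
    obtain ⟨μ, hμ, e0, e1, e2⟩ := key_point W (rep_zero W) (good_one W).rep x y h
    refine ⟨μ⁻¹, inv_ne_zero hμ, ?_⟩
    simp only [eval_one, eval_zero, mul_one, mul_zero, zero_add] at e0 e1
    funext i
    fin_cases i
    · show ((0 + 2) • Point.some x y h).xRep 0 = _
      simp
      field_simp
      linear_combination -e0
    · show ((0 + 2) • Point.some x y h).xRep 1 = _
      simp
      field_simp
      linear_combination -e1
  monic := (q0_monic_natDegree (n := 1) W monic_X (by simp) (by simp)).1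
  degA := by
    rw [(q0_monic_natDegree (n := 1) W monic_X (by simp) (by simp)).2]
    norm_num
  degB := by
    have : q1 W (X : K[X]) 1 = 4 * X ^ 3 + C W.b₂ * X ^ 2 + C (2 * W.b₄) * X + C W.b₆ := by
      simp only [q1, map_mul, map_ofNat]; ring
    rw [this]
    have : (4 * X ^ 3 + C W.b₂ * X ^ 2 + C (2 * W.b₄) * X + C W.b₆ : K[X]).natDegree = 3 := by
      compute_degree!
    rw [this]
    norm_num
  lcB := by
    have : q1 W (X : K[X]) 1 = 4 * X ^ 3 + C W.b₂ * X ^ 2 + C (2 * W.b₄) * X + C W.b₆ := by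
      simp only [q1, map_mul, map_ofNat]; ring
    rw [this]
    have hd : (4 * X ^ 3 + C W.b₂ * X ^ 2 + C (2 * W.b₄) * X + C W.b₆ : K[X]).natDegree = 3 := by
      compute_degree!
    rw [leadingCoeff, hd]
    simp [coeff_X, coeff_C]
    norm_num

/-- **Existence of the x-only multiplication polynomials.** -/
theorem exists_good (n : ℕ) (hn : 1 ≤ n) : ∃ A B : K[X], Good W n A B := by
  have key : ∀ k : ℕ, (∃ A B : K[X], Good W (k + 1) A B) ∧ ∃ A B : K[X], Good W (k + 2) A B := by
    intro k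
    induction k with
    | zero => exact ⟨⟨_, _, good_one W⟩, ⟨_, _, good_two W⟩⟩
    | succ k ih =>
      obtain ⟨⟨A1, B1, h1⟩, ⟨A2, B2, h2⟩⟩ := ih
      exact ⟨⟨A2, B2, h2⟩, good_succ W (by omega) h1 h2⟩
  obtain ⟨k, rfl⟩ : ∃ k, n = k + 1 := ⟨n - 1, by omega⟩
  exact (key k).1

end Fermat.Agent.S13.TorsionXOnly.MulPoly
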