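import Mathlib
import Fermat.Agent.S13.TorsionXOnly.MulPoly

/-!
# Existence and finiteness of `n`-torsion on an elliptic curve over an algebraically closed field
of characteristic zero

Consequences of the x-only multiplication polynomials of `MulPoly.lean`:

* `exists_torsion_ne_zero`: for `n ≥ 2` there is a nonzero point killed by `n`;
* `finite_torsion`, `ncard_torsion_le`: the `n`-torsion is finite with at most `2 n² - 1` elements;
* `natCard_torsionBy_le`: for a prime `p`, `Submodule.torsionBy ℤ _ p` has at most `p²` elements.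
-/

set_option autoImplicit false

namespace Fermat.Agent.S13.TorsionXOnly.Torsion

open WeierstrassCurve WeierstrassCurve.Affine Polynomial
open Fermat.Agent.S13.XOnlyGen Fermat.Agent.S13.TorsionXOnly.MulPoly

variable {K : Type*} [Field K] [DecidableEq K] [IsAlgClosed K] [CharZero K]
  (W : WeierstrassCurve K) [W.IsElliptic]

/-- if `B(x) = 0` then the point is `n`-torsion, and conversely. -/
theorem nsmul_eq_zero_iff {n : ℕ} {A B : K[X]} (hg : Good W n A B) {x y : K}
    (h : W.toAffine.Nonsingular x y) : n • Point.some x y h = 0 ↔ B.eval x = 0 := by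
  obtain ⟨c, hc, hcn⟩ := hg.rep x y h
  have h1 := congrFun hcn 1
  simp at h1
  constructor
  · intro h0
    rw [h0] at h1
    simp at h1
    rcases h1 with h1 | h1
    · exact absurd h1 hc
    · exact h1
  · intro hB
    rw [hB, mul_zero] at h1
    rcases hP : n • Point.some x y h with _ | ⟨x', y', h'⟩
    · rfl
    · rw [hP] at h1
      simp at h1

theorem B_ne_zero {n : ℕ} (hn : 1 ≤ n) {A B : K[X]} (hg : Good W n A B) : B ≠ 0 := by
  intro h0
  have := hg.lcB
  rw [h0, leadingCoeff_zero] at this
  have hnK : (n : K) ≠ 0 := by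
    have : n ≠ 0 := by omega
    exact_mod_cast this
  exact pow_ne_zero 2 hnK this.symm

/-- **Existence of nonzero `n`-torsion.** -/
theorem exists_torsion_ne_zero (n : ℕ) (hn : 2 ≤ n) :
    ∃ T : W.toAffine.Point, T ≠ 0 ∧ n • T = 0 := by
  obtain ⟨A, B, hg⟩ := exists_good W n (by omega)
  have hdeg : B.degree ≠ 0 := by
    have h4 : 4 ≤ n ^ 2 := by nlinarith
    have h3 : 3 ≤ B.natDegree := by have := hg.degB; omega
    intro h0
    have h5 : B.natDegree = 0 := natDegree_eq_of_degree_eq_some (n := 0) h0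
    omega
  obtain ⟨x, hx⟩ := IsAlgClosed.exists_root B hdeg
  obtain ⟨y, hy⟩ := exists_point W x
  exact ⟨Point.some x y hy, Point.some_ne_zero hy, (nsmul_eq_zero_iff W hg hy).mpr hx⟩

/-- a chosen point above every abscissa. -/
noncomputable def pt (x : K) : W.toAffine.Point :=
  Point.some x (exists_point W x).choose (exists_point W x).choose_spec

theorem torsion_subset {n : ℕ} (hn : 1 ≤ n) {A B : K[X]} (hg : Good W n A B) :
    {T : W.toAffine.Point | n • T = 0} ⊆
      insert 0 ((pt W '' (B.roots.toFinset : Set K)) ∪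
        ((fun x => -pt W x) '' (B.roots.toFinset : Set K))) := by
  intro T hT
  rcases T with _ | ⟨x, y, h⟩
  · exact Set.mem_insert _ _
  · right
    have hB : B.eval x = 0 := (nsmul_eq_zero_iff W hg h).mp hT
    have hx : x ∈ (B.roots.toFinset : Set K) := by
      simp only [Finset.mem_coe, Multiset.mem_toFinset]
      exact (mem_roots (B_ne_zero W hn hg)).mpr hB
    have hne : pt W x ≠ 0 := Point.some_ne_zero _
    rcases eq_or_eq_neg_of_xc_eq (W := W) (P := Point.some x y h) (Q := pt W x)
      (Point.some_ne_zero h) hne (by simp [pt]) with h1 | h1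
    · left; exact ⟨x, hx, h1.symm⟩
    · right; exact ⟨x, hx, h1.symm⟩

theorem finite_torsion (n : ℕ) (hn : 1 ≤ n) :
    {T : W.toAffine.Point | n • T = 0}.Finite := by
  obtain ⟨A, B, hg⟩ := exists_good W n hn
  refine Set.Finite.subset ?_ (torsion_subset W hn hg)
  refine Set.Finite.insert _ (Set.Finite.union ?_ ?_)
  · exact (Finset.finite_toSet _).image _
  · exact (Finset.finite_toSet _).image _

theorem ncard_torsion_le (n : ℕ) (hn : 1 ≤ n) :
    {T : W.toAffine.Point | n • T = 0}.ncard ≤ 2 * n ^ 2 - 1 := by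
  obtain ⟨A, B, hg⟩ := exists_good W n hn
  have hR : (B.roots.toFinset : Set K).ncard ≤ n ^ 2 - 1 := by
    rw [Set.ncard_coe_finset]
    refine (Multiset.toFinset_card_le _).trans ((card_roots' B).trans ?_)
    have := hg.degB
    omega
  have hfin : (insert (0 : W.toAffine.Point) ((pt W '' (B.roots.toFinset : Set K)) ∪
        ((fun x => -pt W x) '' (B.roots.toFinset : Set K)))).Finite := by
    refine Set.Finite.insert _ (Set.Finite.union ?_ ?_)
    · exact (Finset.finite_toSet _).image _
    · exact (Finset.finite_toSet _).image _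
  refine (Set.ncard_le_ncard (torsion_subset W hn hg) hfin).trans ?_
  refine (Set.ncard_insert_le _ _).trans ?_
  have h1 := Set.ncard_union_le (pt W '' (B.roots.toFinset : Set K))
    ((fun x => -pt W x) '' (B.roots.toFinset : Set K))
  have h2 := Set.ncard_image_le (f := pt W) (Finset.finite_toSet B.roots.toFinset)
  have h3 := Set.ncard_image_le (f := fun x => -pt W x) (Finset.finite_toSet B.roots.toFinset)
  have h4 : 1 ≤ n ^ 2 := by nlinarith
  omega

/-! ### `Submodule.torsionBy` shapes -/

theorem mem_torsionBy_iff (n : ℕ) (T : W.toAffine.Point) :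
    T ∈ Submodule.torsionBy ℤ W.toAffine.Point (n : ℤ) ↔ n • T = 0 := by
  rw [Submodule.mem_torsionBy_iff, natCast_zsmul]

theorem finite_torsionBy (n : ℕ) (hn : 1 ≤ n) :
    Finite (Submodule.torsionBy ℤ W.toAffine.Point (n : ℤ)) := by
  have h : ((Submodule.torsionBy ℤ W.toAffine.Point (n : ℤ) : Set W.toAffine.Point)) =
      {T : W.toAffine.Point | n • T = 0} := by
    ext T
    exact mem_torsionBy_iff W n T
  have hfin := finite_torsion W n hn
  rw [← h] at hfin
  exact hfin.to_subtype

theorem natCard_torsionBy_le_aux (n : ℕ) (hn : 1 ≤ n) :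
    Nat.card (Submodule.torsionBy ℤ W.toAffine.Point (n : ℤ)) ≤ 2 * n ^ 2 - 1 := by
  have h : ((Submodule.torsionBy ℤ W.toAffine.Point (n : ℤ) : Set W.toAffine.Point)) =
      {T : W.toAffine.Point | n • T = 0} := by
    ext T
    exact mem_torsionBy_iff W n T
  have := ncard_torsion_le W n hn
  rw [← h, ← Nat.card_coe_set_eq] at this
  exact this

omit [DecidableEq K] [IsAlgClosed K] [CharZero K] in
/-- a finite abelian group killed by a prime `p` has `p`-power order. -/
theorem exists_card_eq_pow {G : Type*} [AddCommGroup G] [Finite G] (p : ℕ) [hp : Fact p.Prime]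
    (hkill : ∀ x : G, p • x = 0) : ∃ k : ℕ, Nat.card G = p ^ k := by
  have hpg : IsPGroup p (Multiplicative G) := by
    intro g
    refine ⟨1, ?_⟩
    rw [pow_one]
    have := hkill (Multiplicative.toAdd g)
    rw [← toAdd_pow] at this
    exact Multiplicative.toAdd.injective this
  obtain ⟨k, hk⟩ := IsPGroup.iff_card.mp hpg
  exact ⟨k, hk ▸ (Nat.card_congr Multiplicative.toAdd).symm⟩

theorem nontrivial_torsionBy (n : ℕ) (hn : 2 ≤ n) :
    Nontrivial (Submodule.torsionBy ℤ W.toAffine.Point (n : ℤ)) := by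
  obtain ⟨T, hT0, hT⟩ := exists_torsion_ne_zero W n hn
  refine ⟨⟨⟨T, (mem_torsionBy_iff W n T).mpr hT⟩, 0, ?_⟩⟩
  intro h
  exact hT0 (congrArg Subtype.val h)

/-- **The `p`-torsion has at most `p²` elements.** -/
theorem natCard_torsionBy_le (p : ℕ) [hp : Fact p.Prime] :
    Nat.card (Submodule.torsionBy ℤ W.toAffine.Point (p : ℤ)) ≤ p ^ 2 := by
  have hp1 : 1 ≤ p := hp.out.one_lt.le
  have hfin : Finite (Submodule.torsionBy ℤ W.toAffine.Point (p : ℤ)) :=
    finite_torsionBy W p hp1
  have hkill : ∀ x : Submodule.torsionBy ℤ W.toAffine.Point (p : ℤ), p • x = 0 := by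
    intro x
    apply Subtype.ext
    have := (mem_torsionBy_iff W p x.1).mp x.2
    simpa using this
  obtain ⟨k, hk⟩ := exists_card_eq_pow p hkill
  have hle := natCard_torsionBy_le_aux W p hp1
  rw [hk] at hle ⊢
  have hp2 : 2 ≤ p := hp.out.two_le
  by_contra hcon
  push Not at hcon
  have hk3 : 3 ≤ k := by
    by_contra hk'
    push Not at hk'
    exact absurd (Nat.pow_le_pow_right hp1 (Nat.lt_succ_iff.mp hk')) (not_le.mpr hcon)
  have h3 : p ^ 3 ≤ p ^ k := Nat.pow_le_pow_right hp1 hk3
  have h4 : 2 * p ^ 2 ≤ p ^ 3 := by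
    have : p ^ 3 = p * p ^ 2 := by ring
    rw [this]
    exact Nat.mul_le_mul_right _ hp2
  have h5 : 1 ≤ p ^ 2 := Nat.one_le_pow _ _ hp1
  omega

end Fermat.Agent.S13.TorsionXOnly.Torsion
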