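import Mathlib
import Fermat.Prelude.Def_FLTPrelim_FreyPackage
import Fermat.Prelude.Def_FLTPrelim_GaloisRep
import Fermat.Agent.S13.TorsionXOnly.Torsion

/-!
# Interfaces (I0), (I1) of the S13 block map for the Frey curve

For a Frey package `P`, the curve `E = P.freyCurve⁄Qbar` is elliptic, has a nonzero point killed by
`P.p`, and its `P.p`-torsion is finite with at most `P.p ^ 2` elements.
-/

set_option autoImplicit false

namespace Fermat.Agent.S13.TorsionXOnly.Frey

open WeierstrassCurve WeierstrassCurve.Affine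
open Fermat.Agent.S13.TorsionXOnly.Torsion

local notation "Qbar" => AlgebraicClosure ℚ

/-- the discriminant of the Frey curve. -/
theorem frey_Δ (P : FreyPackage) :
    P.freyCurve.Δ = ((P.a : ℚ) ^ P.p * (P.b : ℚ) ^ P.p * (P.c : ℚ) ^ P.p) ^ 2 / 256 := by
  have hc : (P.c : ℚ) ^ P.p = (P.a : ℚ) ^ P.p + (P.b : ℚ) ^ P.p := by
    have := P.hFLT
    exact_mod_cast this.symm
  rw [hc]
  simp only [WeierstrassCurve.Δ, WeierstrassCurve.b₂, WeierstrassCurve.b₄, WeierstrassCurve.b₆,
    WeierstrassCurve.b₈, FreyPackage.freyCurve]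
  ring

theorem frey_Δ_ne_zero (P : FreyPackage) : P.freyCurve.Δ ≠ 0 := by
  rw [frey_Δ]
  have ha : (P.a : ℚ) ≠ 0 := by exact_mod_cast P.ha0
  have hb : (P.b : ℚ) ≠ 0 := by exact_mod_cast P.hb0
  have hc : (P.c : ℚ) ≠ 0 := by exact_mod_cast P.hc0
  positivity

instance isElliptic_frey (P : FreyPackage) : P.freyCurve.IsElliptic :=
  ⟨isUnit_iff_ne_zero.mpr (frey_Δ_ne_zero P)⟩

instance isElliptic_freyBar (P : FreyPackage) : (P.freyCurve⁄Qbar).IsElliptic := by
  show (P.freyCurve.map (algebraMap ℚ Qbar)).IsElliptic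
  infer_instance

/-- **(I0)** the Frey curve has a nonzero point killed by `p`. -/
theorem exists_torsion (P : FreyPackage) :
    ∃ T : (P.freyCurve⁄Qbar).Point, T ≠ 0 ∧ P.p • T = 0 :=
  exists_torsion_ne_zero (P.freyCurve⁄Qbar) P.p (by have := P.hp5; omega)

/-- **(I1)** the `p`-torsion of the Frey curve is finite with at most `p²` elements. -/
theorem card_torsion (P : FreyPackage) :
    Finite (Submodule.torsionBy ℤ (P.freyCurve⁄Qbar).Point P.p) ∧
      Nat.card (Submodule.torsionBy ℤ (P.freyCurve⁄Qbar).Point P.p) ≤ P.p ^ 2 := by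
  have : Fact P.p.Prime := ⟨P.pp⟩
  exact ⟨finite_torsionBy (P.freyCurve⁄Qbar) P.p P.hppos,
    natCard_torsionBy_le (P.freyCurve⁄Qbar) P.p⟩

/-- the `p`-torsion module is nontrivial. -/
theorem nontrivial_torsion (P : FreyPackage) :
    Nontrivial (Submodule.torsionBy ℤ (P.freyCurve⁄Qbar).Point P.p) :=
  nontrivial_torsionBy (P.freyCurve⁄Qbar) P.p (by have := P.hp5; omega)

end Fermat.Agent.S13.TorsionXOnly.Frey
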